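/-
S36 route E, block BIGCOVER: the valuation rings of `Qbar` over a prime have rank one.
-/
import Fermat.Agent.DR.Conc.Rank

set_option autoImplicit false

namespace Fermat.Agent.S36.Geo.BigCover

/-- `= Abs.RankOne T` for every `MultiRed` with `T.A = A`. -/
theorem rankOne_of_liesOverPrime (A : ValuationSubring (AlgebraicClosure ℚ)) {q : ℕ} (hq : q.Prime)
    (hA : A.LiesOverPrime q) (a b : AlgebraicClosure ℚ) (_ha : a ∈ A) (ha' : a⁻¹ ∉ A) :
    ∃ n : ℕ, a ^ n * b ∈ A := by
  have hb : a ∈ A.nonunits := by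
    rw [ValuationSubring.mem_nonunits_iff_or]
    exact Or.inr ha'
  obtain ⟨r, hr⟩ := Fermat.Agent.DR.Conc.exists_pow_mul_mem_nonunits A q hq hA a hb b
  exact ⟨r, A.nonunits_subset hr⟩

end Fermat.Agent.S36.Geo.BigCover
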